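import Mathlib

set_option autoImplicit false

namespace Fermat.Agent.S52.HITR

open Polynomial

section diff_aux

open Finset

/-- The alternating binomial sum of the values of a real polynomial of degree at most `κ` along an
arithmetic progression vanishes. -/
theorem diff_poly_alt_sum_zero (G : Polynomial ℝ) (A B : ℝ) (κ : ℕ) (hGdeg : G.natDegree ≤ κ)
    (s : ℕ) :
    ∑ k ∈ range (κ + 1 + 1), (((-1 : ℤ) ^ (κ + 1 - k) * ((κ + 1).choose k : ℤ) : ℤ) : ℝ) *
      G.eval (A + B * ((s + k : ℕ) : ℝ)) = 0 := by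
  have hdeg : (G.comp (C A + C B * X)).natDegree < κ + 1 := by
    have h1 : (G.comp (C A + C B * X)).natDegree ≤ G.natDegree * (C A + C B * X).natDegree :=
      natDegree_comp_le
    have h2 : (C A + C B * X : Polynomial ℝ).natDegree ≤ 1 := by
      compute_degree
    calc (G.comp (C A + C B * X)).natDegree ≤ G.natDegree * 1 :=
          h1.trans (Nat.mul_le_mul_left _ h2)
      _ < κ + 1 := by omega
  have h0 := congrFun (Polynomial.fwdDiff_iter_eq_zero_of_degree_lt hdeg) (s : ℝ)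
  rw [fwdDiff_iter_eq_sum_shift] at h0
  simp only [Pi.zero_apply, zsmul_eq_mul, nsmul_eq_mul, mul_one, eval_comp, eval_add, eval_C,
    eval_mul, eval_X] at h0
  rw [← h0]
  push_cast
  rfl

/-- The `(κ+1)`-st forward difference of `y` vanishes wherever it only involves indices `≤ L`. -/
theorem diff_fwdDiff_eq_zero (y : ℕ → ℚ) (G : Polynomial ℝ) (A B : ℝ) (κ den L : ℕ)
    (hden : 0 < den) (hGdeg : G.natDegree ≤ κ) (ε : ℝ)
    (hε : (2 : ℝ) ^ (κ + 1) * ε * den < 1)
    (hy : ∀ j ≤ L, ∃ z : ℤ, (den : ℚ) * y j = z)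
    (hclose : ∀ j ≤ L, |(y j : ℝ) - G.eval (A + B * j)| ≤ ε) (s : ℕ) (hs : s + (κ + 1) ≤ L) :
    (fwdDiff (1 : ℕ))^[κ + 1] y s = 0 := by
  rw [fwdDiff_iter_eq_sum_shift]
  simp only [zsmul_eq_mul, smul_eq_mul, mul_one]
  set c : ℕ → ℤ := fun k => (-1 : ℤ) ^ (κ + 1 - k) * ((κ + 1).choose k : ℤ) with hc
  set d : ℚ := ∑ k ∈ range (κ + 1 + 1), (c k : ℚ) * y (s + k) with hd
  have hε0 : 0 ≤ ε := (abs_nonneg _).trans (hclose 0 (Nat.zero_le _))
  choose! z hz using hy
  have hint : (den : ℚ) * d = ((∑ k ∈ range (κ + 1 + 1), c k * z (s + k) : ℤ) : ℚ) := by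
    rw [hd, mul_sum]
    push_cast
    refine sum_congr rfl fun k hk => ?_
    rw [← hz (s + k) (by have := mem_range.mp hk; omega)]
    ring
  have hbound : |(d : ℝ)| ≤ 2 ^ (κ + 1) * ε := by
    have h0 := diff_poly_alt_sum_zero G A B κ hGdeg s
    have hd' : (d : ℝ) = ∑ k ∈ range (κ + 1 + 1), (c k : ℝ) *
        ((y (s + k) : ℝ) - G.eval (A + B * ((s + k : ℕ) : ℝ))) := by
      simp only [mul_sub, sum_sub_distrib]
      rw [h0, sub_zero, hd]
      push_cast
      rfl
    rw [hd']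
    calc |∑ k ∈ range (κ + 1 + 1), (c k : ℝ) *
            ((y (s + k) : ℝ) - G.eval (A + B * ((s + k : ℕ) : ℝ)))|
        ≤ ∑ k ∈ range (κ + 1 + 1), |(c k : ℝ) *
            ((y (s + k) : ℝ) - G.eval (A + B * ((s + k : ℕ) : ℝ)))| := abs_sum_le_sum_abs _ _
      _ ≤ ∑ k ∈ range (κ + 1 + 1), ((κ + 1).choose k : ℝ) * ε := by
          refine sum_le_sum fun k hk => ?_
          rw [abs_mul]
          have hck : |(c k : ℝ)| = (κ + 1).choose k := by
            simp [hc, abs_mul, abs_pow]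
          rw [hck]
          exact mul_le_mul_of_nonneg_left
            (hclose _ (by have := mem_range.mp hk; omega)) (Nat.cast_nonneg _)
      _ = 2 ^ (κ + 1) * ε := by
          rw [← sum_mul]
          congr 1
          exact_mod_cast Nat.sum_range_choose (κ + 1)
  set m : ℤ := ∑ k ∈ range (κ + 1 + 1), c k * z (s + k) with hm
  have hdenR : (0 : ℝ) < den := by exact_mod_cast hden
  have hmR : ((m : ℤ) : ℝ) = (den : ℝ) * (d : ℝ) := by
    have := congrArg (fun q : ℚ => (q : ℝ)) hint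
    push_cast at this
    rw [this]
  have hmabs : |(m : ℝ)| < 1 := by
    rw [hmR, abs_mul, abs_of_pos hdenR]
    calc (den : ℝ) * |(d : ℝ)| ≤ den * (2 ^ (κ + 1) * ε) :=
          mul_le_mul_of_nonneg_left hbound hdenR.le
      _ = 2 ^ (κ + 1) * ε * den := by ring
      _ < 1 := hε
  have hm0 : m = 0 := by
    have : |m| < 1 := by exact_mod_cast hmabs
    exact Int.abs_lt_one_iff.mp this
  have hd0 : (den : ℚ) * d = 0 := by rw [hint, hm0]; simp
  have hdenQ : (den : ℚ) ≠ 0 := by exact_mod_cast hden.ne'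
  exact (mul_eq_zero.mp hd0).resolve_left hdenQ

/-- Newton interpolation: if the iterated forward differences of `y` at `0` of orders in `(κ, L]`
vanish, then `y` agrees on `[0, L]` with a polynomial of degree at most `κ`. -/
theorem diff_exists_poly_of_fwdDiff_zero (y : ℕ → ℚ) (κ L : ℕ)
    (h : ∀ i, κ < i → i ≤ L → (fwdDiff (1 : ℕ))^[i] y 0 = 0) :
    ∃ Q : Polynomial ℚ, Q.natDegree ≤ κ ∧ ∀ j ≤ L, y j = Q.eval (j : ℚ) := by
  refine ⟨∑ i ∈ range (κ + 1),
    C ((fwdDiff (1 : ℕ))^[i] y 0 / (i.factorial : ℚ)) * descPochhammer ℚ i, ?_, ?_⟩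
  · apply natDegree_sum_le_of_forall_le
    intro i hi
    refine (natDegree_C_mul_le _ _).trans ?_
    rw [descPochhammer_natDegree]
    exact Nat.lt_succ_iff.mp (mem_range.mp hi)
  · intro j hj
    have h1 := shift_eq_sum_fwdDiff_iter (1 : ℕ) y j 0
    simp only [zero_add, smul_eq_mul, nsmul_eq_mul, mul_one] at h1
    rw [h1, eval_finsetSum]
    simp only [eval_mul, eval_C, descPochhammer_eval_eq_descFactorial,
      Nat.descFactorial_eq_factorial_mul_choose]
    have e1 : ∑ k ∈ range (j + 1), (j.choose k : ℚ) * (fwdDiff (1 : ℕ))^[k] y 0 =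
        ∑ k ∈ range (max (j + 1) (κ + 1)), (j.choose k : ℚ) * (fwdDiff (1 : ℕ))^[k] y 0 := by
      refine sum_subset (range_mono (le_max_left _ _)) fun k _ hk => ?_
      rw [mem_range, not_lt] at hk
      rw [Nat.choose_eq_zero_of_lt (by omega)]
      simp
    have e2 : ∑ k ∈ range (κ + 1),
          (fwdDiff (1 : ℕ))^[k] y 0 / (k.factorial : ℚ) * ((k.factorial * j.choose k : ℕ) : ℚ) =
        ∑ k ∈ range (max (j + 1) (κ + 1)), (j.choose k : ℚ) * (fwdDiff (1 : ℕ))^[k] y 0 := by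
      rw [← sum_subset (range_mono (le_max_right (j + 1) (κ + 1))) (f := fun k =>
        (j.choose k : ℚ) * (fwdDiff (1 : ℕ))^[k] y 0)]
      · refine sum_congr rfl fun k _ => ?_
        have : (k.factorial : ℚ) ≠ 0 := by exact_mod_cast k.factorial_ne_zero
        push_cast
        field_simp
      · intro k _ hk
        rw [mem_range, not_lt] at hk
        by_cases hkj : k ≤ j
        · rw [h k (by omega) (by omega), mul_zero]
        · rw [Nat.choose_eq_zero_of_lt (by omega)]
          simp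
    rw [e1, e2]

end diff_aux

/-- A finite sequence of rationals with bounded denominators which is uniformly close to the values
of a real polynomial of degree ≤ κ along an arithmetic progression is given by a rational polynomial
of degree ≤ κ. -/
theorem exists_poly_of_close (y : ℕ → ℚ) (G : Polynomial ℝ) (A B : ℝ) (κ den L : ℕ)
    (hden : 0 < den) (hGdeg : G.natDegree ≤ κ) (ε : ℝ)
    (hε : (2 : ℝ) ^ (κ + 1) * ε * den < 1)
    (hy : ∀ j ≤ L, ∃ z : ℤ, (den : ℚ) * y j = z)
    (hclose : ∀ j ≤ L, |(y j : ℝ) - G.eval (A + B * j)| ≤ ε) :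
    ∃ Q : Polynomial ℚ, Q.natDegree ≤ κ ∧ ∀ j ≤ L, y j = Q.eval (j : ℚ) := by
  apply diff_exists_poly_of_fwdDiff_zero
  intro i hi hiL
  obtain ⟨r, rfl⟩ : ∃ r, i = r + (κ + 1) := ⟨i - (κ + 1), by omega⟩
  rw [Function.iterate_add_apply, fwdDiff_iter_eq_sum_shift]
  refine Finset.sum_eq_zero fun k hk => ?_
  have hk' := Finset.mem_range.mp hk
  rw [diff_fwdDiff_eq_zero y G A B κ den L hden hGdeg ε hε hy hclose _ (by
    simp only [zero_add, smul_eq_mul, mul_one]; omega), smul_zero]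

end Fermat.Agent.S52.HITR
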