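import Mathlib

set_option autoImplicit false

namespace Fermat.Agent.S52.HITR

open Polynomial

/-- Two-variable evaluation of a polynomial with polynomial coefficients. -/
noncomputable def loc_F (P : Polynomial (Polynomial ℝ)) (z : ℝ × ℝ) : ℝ :=
  (P.map (evalRingHom z.2)).eval z.1

theorem loc_F_continuous (P : Polynomial (Polynomial ℝ)) : Continuous (loc_F P) := by
  unfold loc_F
  simp only [eval_map, eval₂_eq_sum_range, coe_evalRingHom]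
  refine continuous_finsetSum _ fun i _ => ?_
  exact ((P.coeff i).continuous.comp continuous_snd).mul (continuous_fst.pow i)

theorem loc_eval_eval (Ψ : Polynomial (Polynomial ℝ)) (p : Polynomial ℝ) (u : ℝ) :
    (Ψ.eval p).eval u = (Ψ.map (evalRingHom u)).eval (p.eval u) := by
  rw [eval_map]
  have := hom_eval₂ Ψ (RingHom.id (Polynomial ℝ)) (evalRingHom u) p
  simpa using this

theorem loc_root_bound (Ψ : Polynomial (Polynomial ℝ)) (a : ℝ) (ha : a ≠ 0)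
    (hlead : Ψ.leadingCoeff = C a) :
    ∃ R : ℝ, ∀ u : ℝ, 0 ≤ u → u ≤ 1 → ∀ ξ : ℝ,
      (Ψ.map (evalRingHom u)).eval ξ = 0 → |ξ| ≤ R := by
  have hcont : ContinuousOn (fun u : ℝ => ∑ i ∈ Finset.range Ψ.natDegree, |(Ψ.coeff i).eval u|)
      (Set.Icc 0 1) := by
    refine Continuous.continuousOn ?_
    refine continuous_finsetSum _ fun i _ => ?_
    exact (Ψ.coeff i).continuous.abs
  obtain ⟨M, hM⟩ := isCompact_Icc.exists_bound_of_continuousOn hcont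
  refine ⟨M / |a| + 1, fun u hu0 hu1 ξ hξ => ?_⟩
  have hne : (evalRingHom u) Ψ.leadingCoeff ≠ 0 := by simpa [hlead] using ha
  have hdeg : (Ψ.map (evalRingHom u)).natDegree = Ψ.natDegree :=
    natDegree_map_of_leadingCoeff_ne_zero _ hne
  have hlc : (Ψ.map (evalRingHom u)).leadingCoeff = a := by
    rw [leadingCoeff_map_of_leadingCoeff_ne_zero _ hne, hlead]; simp
  have hq0 : Ψ.map (evalRingHom u) ≠ 0 := by
    intro h
    rw [h] at hlc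
    exact ha (by simpa using hlc.symm)
  have hroot := IsRoot.norm_lt_cauchyBound hq0 (a := ξ) hξ
  have hMu := hM u ⟨hu0, hu1⟩
  have hM0 : 0 ≤ M := le_trans (norm_nonneg _) hMu
  have hcb : cauchyBound (Ψ.map (evalRingHom u)) ≤ Real.toNNReal M / ‖a‖₊ + 1 := by
    unfold cauchyBound
    rw [hlc, hdeg]
    gcongr
    refine Finset.sup_le fun i hi => ?_
    rw [← NNReal.coe_le_coe, Real.coe_toNNReal _ hM0]
    simp only [coe_nnnorm, coeff_map, coe_evalRingHom, Real.norm_eq_abs]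
    refine le_trans ?_ (le_trans (le_abs_self _) hMu)
    exact Finset.single_le_sum (f := fun i => |(Ψ.coeff i).eval u|)
      (fun j _ => abs_nonneg _) hi
  have h2 := lt_of_lt_of_le hroot hcb
  rw [← NNReal.coe_lt_coe] at h2
  simp only [coe_nnnorm, Real.norm_eq_abs, NNReal.coe_add, NNReal.coe_div,
    Real.coe_toNNReal _ hM0, NNReal.coe_one] at h2
  exact h2.le

theorem loc_near (Ψ : Polynomial (Polynomial ℝ)) (a : ℝ) (ha : a ≠ 0)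
    (hlead : Ψ.leadingCoeff = C a) (Z : Finset ℝ)
    (hZ : ∀ ξ : ℝ, (Ψ.map (evalRingHom (0 : ℝ))).eval ξ = 0 → ξ ∈ Z)
    (δ : ℝ) (hδ : 0 < δ) :
    ∃ u₁ : ℝ, 0 < u₁ ∧ ∀ u : ℝ, 0 ≤ u → u ≤ u₁ → ∀ ξ : ℝ,
      (Ψ.map (evalRingHom u)).eval ξ = 0 → ∃ ξ₀ ∈ Z, |ξ - ξ₀| < δ := by
  obtain ⟨R, hR⟩ := loc_root_bound Ψ a ha hlead
  set S : Set ℝ := Set.Icc (-R) R ∩ ⋂ ξ₀ ∈ Z, {ξ | δ ≤ |ξ - ξ₀|} with hS
  have hSc : IsCompact S := isCompact_Icc.inter_right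
    (isClosed_biInter fun ξ₀ _ => isClosed_le continuous_const (by fun_prop))
  have hN : IsOpen {z : ℝ × ℝ | loc_F Ψ z ≠ 0} :=
    isOpen_ne_fun (loc_F_continuous Ψ) continuous_const
  have hsub : S ×ˢ ({0} : Set ℝ) ⊆ {z : ℝ × ℝ | loc_F Ψ z ≠ 0} := by
    rintro ⟨ξ, u⟩ ⟨hξ, hu⟩
    simp only [Set.mem_singleton_iff] at hu
    subst hu
    intro h0
    have hmem := hZ ξ h0
    have h1 : δ ≤ |ξ - ξ| := (Set.mem_iInter₂.mp hξ.2) ξ hmem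
    simp at h1
    linarith
  obtain ⟨U, V, hU, hV, hSU, h0V, hUV⟩ :=
    generalized_tube_lemma hSc isCompact_singleton hN hsub
  obtain ⟨ε, hε, hball⟩ := Metric.isOpen_iff.mp hV 0 (h0V rfl)
  refine ⟨min 1 (ε / 2), by positivity, fun u hu0 hu1 ξ hξ => ?_⟩
  by_contra hcon
  push Not at hcon
  have hξR := hR u hu0 (hu1.trans (min_le_left _ _)) ξ hξ
  have hξS : ξ ∈ S := ⟨abs_le.mp hξR, Set.mem_iInter₂.mpr fun ξ₀ h => hcon ξ₀ h⟩
  have huV : u ∈ V := hball (by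
    rw [Metric.mem_ball, Real.dist_eq, sub_zero, abs_of_nonneg hu0]
    have := hu1.trans (min_le_right _ _)
    linarith)
  exact hUV (Set.mk_mem_prod (hSU hξS) huV) hξ

theorem loc_step (Ψ : Polynomial (Polynomial ℝ)) (K : ℕ) (ξ₀ : ℝ) (p : Polynomial ℝ)
    (hp0 : p.eval 0 = ξ₀)
    (hd : (Ψ.map (evalRingHom (0 : ℝ))).derivative.eval ξ₀ ≠ 0)
    (hp : X ^ (K + 1) ∣ Ψ.eval p) :
    ∃ δ₀ C₀ : ℝ, 0 < δ₀ ∧ 0 ≤ C₀ ∧ ∀ u ξ : ℝ, 0 ≤ u → u < δ₀ → |ξ - ξ₀| < δ₀ →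
      (Ψ.map (evalRingHom u)).eval ξ = 0 → |ξ - p.eval u| ≤ C₀ * u ^ (K + 1) := by
  obtain ⟨h, hh⟩ := hp
  obtain ⟨Q, hQ⟩ := X_sub_C_dvd_sub_C_eval (a := p) (p := Ψ)
  have key : ∀ u ξ : ℝ, (Ψ.map (evalRingHom u)).eval ξ - u ^ (K + 1) * h.eval u
      = (ξ - p.eval u) * loc_F Q (ξ, u) := by
    intro u ξ
    have h1 := congrArg (fun P : Polynomial (Polynomial ℝ) => (P.map (evalRingHom u)).eval ξ) hQ
    simp only [Polynomial.map_sub, Polynomial.map_mul, map_C, map_X, eval_sub, eval_mul, eval_C,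
      eval_X, coe_evalRingHom, hh, eval_pow] at h1
    exact h1
  have hder : loc_F Q (ξ₀, 0) = (Ψ.map (evalRingHom (0 : ℝ))).derivative.eval ξ₀ := by
    have h1 : Ψ.map (evalRingHom (0 : ℝ))
        = C ((Ψ.eval p).eval 0) + (X - C ξ₀) * Q.map (evalRingHom 0) := by
      have h2 := congrArg (Polynomial.map (evalRingHom (0 : ℝ))) hQ
      simp only [Polynomial.map_sub, Polynomial.map_mul, map_C, map_X, coe_evalRingHom, hp0]
        at h2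
      rw [← h2]; ring
    rw [h1]
    simp [loc_F, derivative_mul]
  set d := (Ψ.map (evalRingHom (0 : ℝ))).derivative.eval ξ₀ with hd_def
  have hdpos : 0 < |d| := abs_pos.mpr hd
  have hcont := (loc_F_continuous Q).continuousAt (x := (ξ₀, 0))
  rw [Metric.continuousAt_iff] at hcont
  obtain ⟨δ, hδ, hδ'⟩ := hcont (|d| / 2) (by positivity)
  obtain ⟨H, hH⟩ := isCompact_Icc.exists_bound_of_continuousOn
    (h.continuous.continuousOn (s := Set.Icc (0 : ℝ) 1))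
  have hH0 : 0 ≤ H := le_trans (norm_nonneg _) (hH 0 ⟨le_rfl, zero_le_one⟩)
  refine ⟨min δ 1, 2 * H / |d|, by positivity, by positivity, fun u ξ hu0 hu1 hξ hroot => ?_⟩
  have hdist : dist (ξ, u) (ξ₀, (0 : ℝ)) < δ := by
    rw [Prod.dist_eq, max_lt_iff, Real.dist_eq, Real.dist_eq, sub_zero, abs_of_nonneg hu0]
    exact ⟨hξ.trans_le (min_le_left _ _), hu1.trans_le (min_le_left _ _)⟩
  have hQ1 := hδ' hdist
  rw [Real.dist_eq, hder] at hQ1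
  have hQ2 : |d| / 2 ≤ |loc_F Q (ξ, u)| := by
    have h4 := abs_sub_abs_le_abs_sub d (loc_F Q (ξ, u))
    rw [abs_sub_comm] at hQ1
    linarith
  have hk := key u ξ
  rw [hroot, zero_sub] at hk
  have hk2 : |ξ - p.eval u| * |loc_F Q (ξ, u)| = u ^ (K + 1) * |h.eval u| := by
    rw [← abs_mul, ← hk, abs_neg, abs_mul, abs_of_nonneg (pow_nonneg hu0 _)]
  have hHu : |h.eval u| ≤ H := hH u ⟨hu0, (hu1.trans_le (min_le_right _ _)).le⟩
  have h3 : |ξ - p.eval u| * (|d| / 2) ≤ u ^ (K + 1) * H := by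
    calc |ξ - p.eval u| * (|d| / 2) ≤ |ξ - p.eval u| * |loc_F Q (ξ, u)| := by gcongr
      _ = u ^ (K + 1) * |h.eval u| := hk2
      _ ≤ u ^ (K + 1) * H := by gcongr
  rw [div_mul_eq_mul_div, le_div_iff₀ hdpos]
  linarith

theorem loc_pos_min (Z : Finset ℝ) (f : ℝ → ℝ) (hf : ∀ x ∈ Z, 0 < f x) :
    ∃ δ : ℝ, 0 < δ ∧ ∀ x ∈ Z, δ ≤ f x := by
  induction Z using Finset.induction_on with
  | empty => exact ⟨1, one_pos, by simp⟩
  | insert x s hx ih =>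
    obtain ⟨δ, hδ, h⟩ := ih (fun y hy => hf y (Finset.mem_insert_of_mem hy))
    refine ⟨min δ (f x), lt_min hδ (hf x (Finset.mem_insert_self _ _)), fun y hy => ?_⟩
    rcases Finset.mem_insert.mp hy with rfl | hy
    · exact min_le_right _ _
    · exact (min_le_left _ _).trans (h y hy)

/-- Root localization: for small u > 0 every real root of Ψ(·,u) is within C·u^(K+1) of one of the
approximate root branches g ξ₀ (ξ₀ running over the finitely many, simple, real roots of Ψ(·,0)). -/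
theorem root_localization (Ψ : Polynomial (Polynomial ℝ)) (a : ℝ) (ha : a ≠ 0)
    (hlead : Ψ.leadingCoeff = C a) (K : ℕ) (Z : Finset ℝ)
    (hZ : ∀ ξ : ℝ, (Ψ.map (evalRingHom (0 : ℝ))).eval ξ = 0 → ξ ∈ Z)
    (hsimple : ∀ ξ ∈ Z, (Ψ.map (evalRingHom (0 : ℝ))).derivative.eval ξ ≠ 0)
    (g : ℝ → Polynomial ℝ) (hg0 : ∀ ξ ∈ Z, (g ξ).eval 0 = ξ)
    (hg : ∀ ξ ∈ Z, X ^ (K + 1) ∣ Ψ.eval (g ξ)) :
    ∃ u₀ C : ℝ, 0 < u₀ ∧ ∀ u : ℝ, 0 < u → u ≤ u₀ → ∀ ξ : ℝ,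
      (Ψ.map (evalRingHom u)).eval ξ = 0 → ∃ ξ₀ ∈ Z, |ξ - (g ξ₀).eval u| ≤ C * u ^ (K + 1) := by
  have hstep : ∀ ξ₀ ∈ Z, ∃ δ₀ C₀ : ℝ, 0 < δ₀ ∧ 0 ≤ C₀ ∧ ∀ u ξ : ℝ, 0 ≤ u → u < δ₀ →
      |ξ - ξ₀| < δ₀ → (Ψ.map (evalRingHom u)).eval ξ = 0 →
      |ξ - (g ξ₀).eval u| ≤ C₀ * u ^ (K + 1) := fun ξ₀ h =>
    loc_step Ψ K ξ₀ (g ξ₀) (hg0 ξ₀ h) (hsimple ξ₀ h) (hg ξ₀ h)
  choose! δf Cf hδf hCf hf using hstep
  obtain ⟨δ, hδ, hδZ⟩ := loc_pos_min Z δf hδf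
  obtain ⟨u₁, hu₁, hnear⟩ := loc_near Ψ a ha hlead Z hZ δ hδ
  refine ⟨min u₁ (δ / 2), ∑ x ∈ Z, Cf x, by positivity, fun u hu hu0 ξ hξ => ?_⟩
  obtain ⟨ξ₀, hξ₀, hlt⟩ := hnear u hu.le (hu0.trans (min_le_left _ _)) ξ hξ
  refine ⟨ξ₀, hξ₀, ?_⟩
  have h1 : u < δf ξ₀ := by
    have := hδZ ξ₀ hξ₀
    have := hu0.trans (min_le_right _ _)
    linarith
  have h2 := hf ξ₀ hξ₀ u ξ hu.le h1 (hlt.trans_le (hδZ ξ₀ hξ₀)) hξ
  refine h2.trans ?_
  have h3 : Cf ξ₀ ≤ ∑ x ∈ Z, Cf x := Finset.single_le_sum (f := Cf) (fun j hj => hCf j hj) hξ₀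
  gcongr

end Fermat.Agent.S52.HITR
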