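import Mathlib

set_option autoImplicit false

namespace Fermat.Agent.S52.HITR

open Polynomial

theorem newton_eval_zero_eval {𝕜 : Type*} [Field 𝕜] (Ψ : Polynomial (Polynomial 𝕜))
    (g : Polynomial 𝕜) :
    (Ψ.eval g).eval 0 = (Ψ.map (evalRingHom (0 : 𝕜))).eval (g.eval 0) := by
  have h := Polynomial.hom_eval₂ Ψ (RingHom.id (Polynomial 𝕜)) (evalRingHom (0 : 𝕜)) g
  rw [eval_map]
  simpa [eval₂_id, coe_evalRingHom] using h

theorem newton_X_dvd_of_eval_zero {𝕜 : Type*} [Field 𝕜] (p : Polynomial 𝕜)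
    (h : p.eval 0 = 0) : X ∣ p := by
  rw [X_dvd_iff, coeff_zero_eq_eval_zero]
  exact h

theorem newton_step {𝕜 : Type*} [Field 𝕜] (Ψ : Polynomial (Polynomial 𝕜)) (ξ₀ : 𝕜)
    (h1 : (Ψ.map (evalRingHom (0 : 𝕜))).derivative.eval ξ₀ ≠ 0) (K : ℕ)
    (g : Polynomial 𝕜) (hdeg : g.natDegree ≤ K) (hg0 : g.eval 0 = ξ₀)
    (hdvd : X ^ (K + 1) ∣ Ψ.eval g) :
    ∃ g' : Polynomial 𝕜, g'.natDegree ≤ K + 1 ∧ g'.eval 0 = ξ₀ ∧
      X ^ (K + 1 + 1) ∣ Ψ.eval g' := by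
  obtain ⟨h, hh⟩ := hdvd
  set d := (Ψ.map (evalRingHom (0 : 𝕜))).derivative.eval ξ₀ with hd
  set c : 𝕜 := -(h.eval 0) / d with hc
  refine ⟨g + C c * X ^ (K + 1), ?_, ?_, ?_⟩
  · refine (natDegree_add_le _ _).trans (max_le (hdeg.trans (Nat.le_succ K)) ?_)
    exact natDegree_C_mul_X_pow_le c (K + 1)
  · simp [hg0]
  · obtain ⟨k, hk⟩ := Polynomial.binomExpansion Ψ g (C c * X ^ (K + 1))
    have key : Ψ.eval (g + C c * X ^ (K + 1)) =
        X ^ (K + 1) * (h + Ψ.derivative.eval g * C c + k * C c ^ 2 * X ^ (K + 1)) := by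
      rw [hk, hh]; ring
    rw [key, pow_succ X (K + 1)]
    refine mul_dvd_mul_left _ (newton_X_dvd_of_eval_zero _ ?_)
    have hder : (Ψ.derivative.eval g).eval 0 = d := by
      rw [newton_eval_zero_eval, ← derivative_map, hg0]
    simp only [eval_add, eval_mul, eval_pow, eval_C, eval_X, hder]
    rw [hc]
    field_simp
    ring

/-- Newton approximant of a simple root: a truncated power-series root of a two-variable polynomial. -/
theorem exists_newton_approx {𝕜 : Type*} [Field 𝕜] (Ψ : Polynomial (Polynomial 𝕜)) (ξ₀ : 𝕜)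
    (h0 : (Ψ.map (evalRingHom (0 : 𝕜))).eval ξ₀ = 0)
    (h1 : (Ψ.map (evalRingHom (0 : 𝕜))).derivative.eval ξ₀ ≠ 0) (K : ℕ) :
    ∃ g : Polynomial 𝕜, g.natDegree ≤ K ∧ g.eval 0 = ξ₀ ∧ X ^ (K + 1) ∣ Ψ.eval g := by
  induction K with
  | zero =>
    refine ⟨C ξ₀, by simp, by simp, ?_⟩
    rw [zero_add, pow_one]
    refine newton_X_dvd_of_eval_zero _ ?_
    rw [newton_eval_zero_eval, eval_C]
    exact h0
  | succ K ih =>
    obtain ⟨g, hdeg, hg0, hdvd⟩ := ih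
    exact newton_step Ψ ξ₀ h1 K g hdeg hg0 hdvd

end Fermat.Agent.S52.HITR
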