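import Mathlib
import Fermat.Agent.S52.HITR.Newton
import Fermat.Agent.S52.HITR.Local
import Fermat.Agent.S52.HITR.Diff

set_option autoImplicit false

namespace Fermat.Agent.S52.HITR

open Polynomial

/-- The top weighted form of a two-variable polynomial: the coefficient of `x ^ i` is the
coefficient of `n ^ (κ * (D - i))` in `P.coeff i`, where `D = P.natDegree`. -/
noncomputable def leadForm (P : Polynomial (Polynomial ℚ)) (κ : ℕ) : Polynomial ℚ :=
  ∑ i ∈ Finset.range (P.natDegree + 1),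
    C ((P.coeff i).coeff (κ * (P.natDegree - i))) * X ^ i

/-- The weighted reflection of `P`, with real coefficients. -/
noncomputable def reflPoly (P : Polynomial (Polynomial ℚ)) (κ : ℕ) :
    Polynomial (Polynomial ℝ) :=
  ∑ i ∈ Finset.range (P.natDegree + 1),
    C (((P.coeff i).reflect (κ * (P.natDegree - i))).map (algebraMap ℚ ℝ)) * X ^ i

theorem core_coeff_reflPoly (P : Polynomial (Polynomial ℚ)) (κ i : ℕ) :
    (reflPoly P κ).coeff i =
      if i ≤ P.natDegree then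
        ((P.coeff i).reflect (κ * (P.natDegree - i))).map (algebraMap ℚ ℝ) else 0 := by
  unfold reflPoly
  rw [finsetSum_coeff]
  simp only [coeff_C_mul, coeff_X_pow, mul_ite, mul_one, mul_zero]
  rw [Finset.sum_ite_eq]
  simp only [Finset.mem_range, Nat.lt_succ_iff]

theorem core_map_zero (P : Polynomial (Polynomial ℚ)) (κ : ℕ) :
    (reflPoly P κ).map (evalRingHom (0 : ℝ)) = (leadForm P κ).map (algebraMap ℚ ℝ) := by
  unfold reflPoly leadForm
  rw [Polynomial.map_sum, Polynomial.map_sum]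
  refine Finset.sum_congr rfl fun i _ => ?_
  rw [Polynomial.map_mul, Polynomial.map_mul, Polynomial.map_pow, Polynomial.map_pow, map_X,
    map_X, map_C, map_C]
  congr 2
  rw [coe_evalRingHom, ← coeff_zero_eq_eval_zero, coeff_map, coeff_reflect, revAt_zero]

theorem core_natDegree_reflPoly (P : Polynomial (Polynomial ℚ)) (κ : ℕ) (a : ℚ) (ha : a ≠ 0)
    (hlead : P.coeff P.natDegree = C a) :
    (reflPoly P κ).natDegree = P.natDegree ∧ (reflPoly P κ).leadingCoeff = C (a : ℝ) := by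
  have hc : (reflPoly P κ).coeff P.natDegree = C (a : ℝ) := by
    rw [core_coeff_reflPoly, if_pos le_rfl, hlead, Nat.sub_self, Nat.mul_zero, reflect_C,
      pow_zero, mul_one, map_C]
    rfl
  have hne : (reflPoly P κ).coeff P.natDegree ≠ 0 := by
    rw [hc]
    exact C_ne_zero.mpr (by exact_mod_cast ha)
  have hle : (reflPoly P κ).natDegree ≤ P.natDegree := by
    rw [natDegree_le_iff_coeff_eq_zero]
    intro N hN
    rw [core_coeff_reflPoly, if_neg (by omega)]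
  have heq : (reflPoly P κ).natDegree = P.natDegree :=
    le_antisymm hle (le_natDegree_of_ne_zero hne)
  exact ⟨heq, by rw [leadingCoeff, heq, hc]⟩

theorem core_eval_reflPoly (P : Polynomial (Polynomial ℚ)) (κ : ℕ) (u ξ : ℝ) :
    ((reflPoly P κ).map (evalRingHom u)).eval ξ =
      ∑ i ∈ Finset.range (P.natDegree + 1),
        (((P.coeff i).reflect (κ * (P.natDegree - i))).map (algebraMap ℚ ℝ)).eval u * ξ ^ i := by
  unfold reflPoly
  rw [Polynomial.map_sum, eval_finsetSum]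
  refine Finset.sum_congr rfl fun i _ => ?_
  rw [Polynomial.map_mul, Polynomial.map_pow, map_X, map_C, eval_mul, eval_pow, eval_X, eval_C,
    coe_evalRingHom]

theorem core_eval_cast (P : Polynomial (Polynomial ℚ)) (q x : ℚ) :
    (((P.map (evalRingHom q)).eval x : ℚ) : ℝ) =
      ∑ i ∈ Finset.range (P.natDegree + 1),
        ((P.coeff i).map (algebraMap ℚ ℝ)).eval (q : ℝ) * (x : ℝ) ^ i := by
  rw [eval_map, eval₂_eq_sum_range]
  push_cast
  refine Finset.sum_congr rfl fun i _ => ?_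
  congr 1
  rw [coe_evalRingHom, eval_map]
  have h := eval₂_at_apply (p := P.coeff i) (algebraMap ℚ ℝ) q
  rw [eq_ratCast, eq_ratCast] at h
  exact h.symm

theorem core_reflect_eval (c : Polynomial ℝ) (N : ℕ) (hc : c.natDegree ≤ N) (n : ℝ)
    (hn : n ≠ 0) : (c.reflect N).eval n⁻¹ * n ^ N = c.eval n := by
  let _ : Invertible n := invertibleOfNonzero hn
  have h := eval₂_reflect_mul_pow (RingHom.id ℝ) n N c hc
  rw [invOf_eq_inv] at h
  simpa [eval₂_id] using h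

theorem core_eval_scale (P : Polynomial (Polynomial ℚ)) (κ : ℕ)
    (hdeg : ∀ i ≤ P.natDegree, (P.coeff i).natDegree ≤ κ * (P.natDegree - i))
    (n x : ℝ) (hn : n ≠ 0) :
    ∑ i ∈ Finset.range (P.natDegree + 1),
        ((P.coeff i).map (algebraMap ℚ ℝ)).eval n * x ^ i =
      n ^ (κ * P.natDegree) * ((reflPoly P κ).map (evalRingHom n⁻¹)).eval (x / n ^ κ) := by
  rw [core_eval_reflPoly, Finset.mul_sum]
  refine Finset.sum_congr rfl fun i hi => ?_
  have hi' : i ≤ P.natDegree := Nat.lt_succ_iff.mp (Finset.mem_range.mp hi)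
  have hN : κ * P.natDegree = κ * (P.natDegree - i) + κ * i := by
    rw [← Nat.mul_add, Nat.sub_add_cancel hi']
  have h1 : ((P.coeff i).map (algebraMap ℚ ℝ)).natDegree ≤ κ * (P.natDegree - i) :=
    (natDegree_map_le).trans (hdeg i hi')
  have h2 := core_reflect_eval ((P.coeff i).map (algebraMap ℚ ℝ)) _ h1 n hn
  rw [reflect_map] at h2
  rw [← h2, hN, pow_add, div_pow, ← pow_mul]
  have hnk : n ^ (κ * i) ≠ 0 := pow_ne_zero _ hn
  field_simp

theorem core_reflect_eval' (g : Polynomial ℝ) (κ : ℕ) (hg : g.natDegree ≤ κ) (n : ℝ)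
    (hn : n ≠ 0) : (g.reflect κ).eval n = n ^ κ * g.eval n⁻¹ := by
  have h := core_reflect_eval (g.reflect κ) κ
    ((natDegree_reflect_le).trans (max_le le_rfl hg)) n hn
  rw [reflect_reflect] at h
  rw [← h]
  ring

/-- For large `n`, every real root of `P(·, n)` is close to one of the finitely many polynomial
branches. -/
theorem core_key (P : Polynomial (Polynomial ℚ)) (κ : ℕ) (a : ℚ) (ha : a ≠ 0)
    (hlead : P.coeff P.natDegree = C a)
    (hdeg : ∀ i ≤ P.natDegree, (P.coeff i).natDegree ≤ κ * (P.natDegree - i))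
    (hsep : (leadForm P κ).Separable) (ε : ℝ) (hε : 0 < ε) :
    ∃ (Z : Finset ℝ) (G : ℝ → Polynomial ℝ) (N₁ : ℝ), (∀ ξ ∈ Z, (G ξ).natDegree ≤ κ) ∧
      ∀ n x : ℚ, N₁ ≤ (n : ℝ) → (P.map (evalRingHom n)).eval x = 0 →
        ∃ ξ₀ ∈ Z, |(x : ℝ) - (G ξ₀).eval (n : ℝ)| ≤ ε := by
  classical
  set Ψ := reflPoly P κ with hΨ
  set Φ := (leadForm P κ).map (algebraMap ℚ ℝ) with hΦ
  have hΦ0 : Φ ≠ 0 := (Polynomial.map_ne_zero_iff (algebraMap ℚ ℝ).injective).mpr hsep.ne_zero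
  have hΨ0 : Ψ.map (evalRingHom (0 : ℝ)) = Φ := core_map_zero P κ
  set Z : Finset ℝ := Φ.roots.toFinset with hZdef
  have hZ : ∀ ξ : ℝ, (Ψ.map (evalRingHom (0 : ℝ))).eval ξ = 0 → ξ ∈ Z := by
    intro ξ h
    rw [hΨ0] at h
    rw [hZdef, Multiset.mem_toFinset, mem_roots hΦ0]
    exact h
  have hZroot : ∀ ξ ∈ Z, Φ.eval ξ = 0 := by
    intro ξ hξ
    rw [hZdef, Multiset.mem_toFinset, mem_roots hΦ0] at hξ
    exact hξ
  have hsimple : ∀ ξ ∈ Z, (Ψ.map (evalRingHom (0 : ℝ))).derivative.eval ξ ≠ 0 := by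
    intro ξ hξ
    rw [hΨ0]
    have h1 : (leadForm P κ).eval₂ (algebraMap ℚ ℝ) ξ = 0 := by
      rw [← eval_map]; exact hZroot ξ hξ
    have h2 := hsep.eval₂_derivative_ne_zero (algebraMap ℚ ℝ) h1
    rwa [← eval_map, ← derivative_map] at h2
  have hN : ∀ ξ : ℝ, ∃ g : Polynomial ℝ, ξ ∈ Z →
      (g.natDegree ≤ κ ∧ g.eval 0 = ξ ∧ X ^ (κ + 1) ∣ Ψ.eval g) := by
    intro ξ
    by_cases hξ : ξ ∈ Z
    · obtain ⟨g, h1, h2, h3⟩ := exists_newton_approx Ψ ξ
        (by rw [hΨ0]; exact hZroot ξ hξ) (hsimple ξ hξ) κ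
      exact ⟨g, fun _ => ⟨h1, h2, h3⟩⟩
    · exact ⟨0, fun h => absurd h hξ⟩
  choose g hg using hN
  have haR : (a : ℝ) ≠ 0 := by exact_mod_cast ha
  obtain ⟨u₀, C₀, hu₀, hloc⟩ := root_localization Ψ (a : ℝ) haR
    (core_natDegree_reflPoly P κ a ha hlead).2 κ Z hZ hsimple g
    (fun ξ h => (hg ξ h).2.1) (fun ξ h => (hg ξ h).2.2)
  refine ⟨Z, fun ξ => (g ξ).reflect κ, max 1 (max (1 / u₀) (|C₀| / ε)),
    fun ξ _ => (natDegree_reflect_le).trans (max_le le_rfl ((hg ξ ‹_›).1)), ?_⟩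
  intro n x hn hx
  have hn1 : (1 : ℝ) ≤ n := (le_max_left _ _).trans hn
  have hn2 : 1 / u₀ ≤ (n : ℝ) := ((le_max_left _ _).trans (le_max_right _ _)).trans hn
  have hn3 : |C₀| / ε ≤ (n : ℝ) := ((le_max_right _ _).trans (le_max_right _ _)).trans hn
  have hnpos : (0 : ℝ) < n := lt_of_lt_of_le one_pos hn1
  have hnne : (n : ℝ) ≠ 0 := hnpos.ne'
  -- transfer the root to the reflected polynomial
  have h1 : (((P.map (evalRingHom n)).eval x : ℚ) : ℝ) = 0 := by rw [hx]; simp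
  rw [core_eval_cast, core_eval_scale P κ hdeg (n : ℝ) (x : ℝ) hnne] at h1
  have h2 : ((reflPoly P κ).map (evalRingHom (n : ℝ)⁻¹)).eval ((x : ℝ) / (n : ℝ) ^ κ) = 0 := by
    rcases mul_eq_zero.mp h1 with h | h
    · exact absurd h (pow_ne_zero _ hnne)
    · exact h
  have hu1 : (0 : ℝ) < (n : ℝ)⁻¹ := inv_pos.mpr hnpos
  have hu2 : (n : ℝ)⁻¹ ≤ u₀ := by
    rw [inv_le_comm₀ hnpos hu₀]
    simpa [one_div] using hn2
  obtain ⟨ξ₀, hξ₀, hb⟩ := hloc (n : ℝ)⁻¹ hu1 hu2 _ h2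
  refine ⟨ξ₀, hξ₀, ?_⟩
  rw [core_reflect_eval' (g ξ₀) κ (hg ξ₀ hξ₀).1 (n : ℝ) hnne]
  have hnk : (0 : ℝ) < (n : ℝ) ^ κ := pow_pos hnpos κ
  have e1 : (x : ℝ) - (n : ℝ) ^ κ * (g ξ₀).eval (n : ℝ)⁻¹ =
      (n : ℝ) ^ κ * ((x : ℝ) / (n : ℝ) ^ κ - (g ξ₀).eval (n : ℝ)⁻¹) := by
    field_simp
  rw [e1, abs_mul, abs_of_pos hnk]
  calc (n : ℝ) ^ κ * |(x : ℝ) / (n : ℝ) ^ κ - (g ξ₀).eval (n : ℝ)⁻¹|
      ≤ (n : ℝ) ^ κ * (C₀ * ((n : ℝ)⁻¹) ^ (κ + 1)) := by gcongr
    _ = C₀ / (n : ℝ) := by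
        rw [pow_succ, inv_pow]
        field_simp
    _ ≤ |C₀| / (n : ℝ) := by gcongr; exact le_abs_self _
    _ ≤ ε := by
        rw [div_le_iff₀ hnpos]
        rw [div_le_iff₀ hε] at hn3
        linarith [hn3]

end Fermat.Agent.S52.HITR
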