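import Mathlib
import Fermat.Agent.S52.HITR.Core
import Fermat.Agent.S52.HITR.Diff

set_option autoImplicit false

namespace Fermat.Agent.S52.HITR

open Polynomial

theorem main_algebra (P : Polynomial (Polynomial ℚ)) (κ : ℕ)
    (hdeg : ∀ i ≤ P.natDegree, (P.coeff i).natDegree ≤ κ * (P.natDegree - i))
    (Q₁ : Polynomial ℚ) (hQ₁ : Q₁.natDegree ≤ κ) (A B : ℚ) (hB : B ≠ 0)
    (hz : ∀ j : ℕ, j ≤ κ * P.natDegree →
      (P.map (evalRingHom (A + B * (j : ℚ)))).eval (Q₁.eval (j : ℚ)) = 0) :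
    ∃ Q : Polynomial ℚ, P.eval Q = 0 := by
  set D := P.natDegree with hD
  set lin : Polynomial ℚ := C A + C B * X with hlin
  set inv : Polynomial ℚ := C (1 / B) * (X - C A) with hinv
  set R : Polynomial ℚ := ∑ i ∈ Finset.range (D + 1), (P.coeff i).comp lin * Q₁ ^ i with hR
  have hlindeg : lin.natDegree ≤ 1 := by
    rw [hlin]
    refine (natDegree_add_le _ _).trans ?_
    rw [natDegree_C]
    exact max_le (Nat.zero_le _) ((natDegree_C_mul_le B X).trans natDegree_X_le)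
  have hRdeg : R.natDegree ≤ κ * D := by
    rw [hR]
    refine natDegree_sum_le_of_forall_le _ _ fun i hi => ?_
    have hi' : i ≤ D := Nat.lt_succ_iff.mp (Finset.mem_range.mp hi)
    refine natDegree_mul_le.trans ?_
    have h1 : ((P.coeff i).comp lin).natDegree ≤ κ * (D - i) := by
      refine natDegree_comp_le.trans ?_
      calc (P.coeff i).natDegree * lin.natDegree ≤ (κ * (D - i)) * 1 :=
            Nat.mul_le_mul (hdeg i hi') hlindeg
        _ = κ * (D - i) := Nat.mul_one _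
    have h2 : (Q₁ ^ i).natDegree ≤ κ * i := by
      refine natDegree_pow_le.trans ?_
      rw [Nat.mul_comm]
      exact Nat.mul_le_mul_right i hQ₁
    calc ((P.coeff i).comp lin).natDegree + (Q₁ ^ i).natDegree ≤ κ * (D - i) + κ * i :=
          Nat.add_le_add h1 h2
      _ = κ * D := by rw [← Nat.mul_add, Nat.sub_add_cancel hi']
  have hReval : ∀ j : ℕ, j ≤ κ * D → R.eval (j : ℚ) = 0 := by
    intro j hj
    have h := hz j hj
    rw [eval_map, eval₂_eq_sum_range] at h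
    rw [hR, eval_finsetSum, ← h]
    refine Finset.sum_congr rfl fun i _ => ?_
    rw [eval_mul, eval_pow, eval_comp, coe_evalRingHom, hlin]
    simp
  have hR0 : R = 0 := by
    refine eq_zero_of_natDegree_lt_card_of_eval_eq_zero' R
      ((Finset.range (κ * D + 1)).image (Nat.cast : ℕ → ℚ)) ?_ ?_
    · intro q hq
      obtain ⟨j, hj, rfl⟩ := Finset.mem_image.mp hq
      exact hReval j (Nat.lt_succ_iff.mp (Finset.mem_range.mp hj))
    · rw [Finset.card_image_of_injective _ Nat.cast_injective, Finset.card_range]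
      exact Nat.lt_succ_of_le hRdeg
  have hcomp : lin.comp inv = X := by
    rw [hlin, hinv]
    simp only [add_comp, mul_comp, C_comp, X_comp]
    rw [← mul_assoc, ← C_mul, mul_one_div_cancel hB, C_1, one_mul]
    ring
  refine ⟨Q₁.comp inv, ?_⟩
  have h0 : R.comp inv = 0 := by rw [hR0, zero_comp]
  rw [eval_eq_sum_range, ← h0, hR, sum_comp]
  refine Finset.sum_congr rfl fun i _ => ?_
  rw [mul_comp, pow_comp, comp_assoc, hcomp, comp_X]

/-- Hilbert irreducibility for roots along an arithmetic progression (real-analytic version). -/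
theorem exists_root_of_forall_AP (P : Polynomial (Polynomial ℚ)) (κ : ℕ) (a : ℚ) (ha : a ≠ 0)
    (hlead : P.coeff P.natDegree = C a)
    (hdeg : ∀ i ≤ P.natDegree, (P.coeff i).natDegree ≤ κ * (P.natDegree - i))
    (hsep : (leadForm P κ).Separable)
    (n₀ m den : ℕ) (hm : 0 < m) (hden : 0 < den)
    (hroot : ∀ k : ℕ, ∃ x : ℚ, (∃ z : ℤ, (den : ℚ) * x = z) ∧
        (P.map (evalRingHom ((n₀ + k * m : ℕ) : ℚ))).eval x = 0) :
    ∃ Q : Polynomial ℚ, P.eval Q = 0 := by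
  classical
  have hdenR : (0 : ℝ) < den := by exact_mod_cast hden
  set ε : ℝ := 1 / (2 ^ (κ + 2) * den) with hεdef
  have hε : 0 < ε := by positivity
  have hε2 : (2 : ℝ) ^ (κ + 1) * ε * den < 1 := by
    have : (2 : ℝ) ^ (κ + 1) * ε * den = 1 / 2 := by
      rw [hεdef, pow_succ (2 : ℝ) (κ + 1)]
      field_simp
    rw [this]; norm_num
  obtain ⟨Z, G, N₁, hGdeg, hkey⟩ := core_key P κ a ha hlead hdeg hsep ε hε
  choose x hxden hxroot using hroot
  obtain ⟨K₀, hK₀⟩ := exists_nat_ge N₁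
  have hstep : ∀ k : ℕ, K₀ ≤ k →
      ∃ ξ₀ ∈ Z, |(x k : ℝ) - (G ξ₀).eval ((n₀ + k * m : ℕ) : ℝ)| ≤ ε := by
    intro k hk
    have hN : N₁ ≤ (((n₀ + k * m : ℕ) : ℚ) : ℝ) := by
      rw [Rat.cast_natCast]
      refine hK₀.trans ?_
      have : K₀ ≤ n₀ + k * m := by nlinarith
      exact_mod_cast this
    obtain ⟨ξ₀, hξ₀, h⟩ := hkey _ (x k) hN (hxroot k)
    rw [Rat.cast_natCast] at h
    exact ⟨ξ₀, hξ₀, h⟩
  obtain ⟨ξ₁, hξ₁, -⟩ := hstep K₀ le_rfl
  have hcol : ∀ k : ℕ, ∃ c : ↥Z, K₀ ≤ k →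
      |(x k : ℝ) - (G c).eval ((n₀ + k * m : ℕ) : ℝ)| ≤ ε := by
    intro k
    by_cases hk : K₀ ≤ k
    · obtain ⟨ξ₀, hξ₀, h⟩ := hstep k hk
      exact ⟨⟨ξ₀, hξ₀⟩, fun _ => h⟩
    · exact ⟨⟨ξ₁, hξ₁⟩, fun h => absurd h hk⟩
  choose col hcolp using hcol
  obtain ⟨a', ha', b, c, hc⟩ := Combinatorics.exists_mono_homothetic_copy
    (Finset.range (κ * P.natDegree + 1)) (fun j : ℕ => col (j + K₀))
  have hclose : ∀ j ≤ κ * P.natDegree,
      |((x (a' * j + b + K₀) : ℚ) : ℝ) -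
        (G c).eval (((n₀ + (b + K₀) * m : ℕ) : ℝ) + ((a' * m : ℕ) : ℝ) * j)| ≤ ε := by
    intro j hj
    have h1 := hc j (Finset.mem_range.mpr (Nat.lt_succ_of_le hj))
    simp only [smul_eq_mul] at h1
    have h2 := hcolp (a' * j + b + K₀) (Nat.le_add_left _ _)
    rw [h1] at h2
    have h3 : ((n₀ + (a' * j + b + K₀) * m : ℕ) : ℝ) =
        ((n₀ + (b + K₀) * m : ℕ) : ℝ) + ((a' * m : ℕ) : ℝ) * j := by
      push_cast; ring
    rw [h3] at h2
    exact h2
  obtain ⟨Q₁, hQ₁deg, hQ₁⟩ := exists_poly_of_close (fun j => x (a' * j + b + K₀)) (G c)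
    ((n₀ + (b + K₀) * m : ℕ) : ℝ) ((a' * m : ℕ) : ℝ) κ den (κ * P.natDegree) hden
    (hGdeg c c.2) ε hε2 (fun j _ => hxden _) hclose
  refine main_algebra P κ hdeg Q₁ hQ₁deg ((n₀ + (b + K₀) * m : ℕ) : ℚ) ((a' * m : ℕ) : ℚ)
    ?_ ?_
  · have : a' * m ≠ 0 := Nat.mul_ne_zero (Nat.pos_iff_ne_zero.mp ha') (Nat.pos_iff_ne_zero.mp hm)
    exact_mod_cast this
  · intro j hj
    have h := hxroot (a' * j + b + K₀)
    rw [← hQ₁ j hj]
    have h3 : ((n₀ + (a' * j + b + K₀) * m : ℕ) : ℚ) =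
        ((n₀ + (b + K₀) * m : ℕ) : ℚ) + ((a' * m : ℕ) : ℚ) * j := by
      push_cast; ring
    rw [h3] at h
    exact h

end Fermat.Agent.S52.HITR
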